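/-
S25, block CECH, leaf K1b (helper490): `N01` is a projective `A`-module.

`N0` is an `X`-equivariant `A`-linear retract of `A[X]^n`, `N01` is its localisation away from
`x` (`r0` injective, `T` invertible, `loc0`).  We exhibit `N01` as an `A`-linear retract of the
free `A`-module `(Fin n × ℤ) →₀ A` ("Laurent polynomial vectors").
-/
import Fermat.Agent.S25.H10.CechDefs

set_option autoImplicit false

namespace Fermat.Agent.S25.H490

open Polynomial Fermat.Agent.S25.H10

universe u v

variable {A : Type u} [CommRing A]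

section Shift

variable (A) (n : ℕ)

/-- The monomial basis of `A[X]^n` over `A`. -/
noncomputable def monoBasis : Module.Basis (Σ _ : Fin n, ℕ) A (Fin n → A[X]) :=
  Pi.basis fun _ : Fin n => Polynomial.basisMonomials A

theorem monoBasis_apply (p : Σ _ : Fin n, ℕ) :
    monoBasis A n p = Pi.single p.1 (monomial p.2 (1 : A)) := by
  unfold monoBasis
  rw [Pi.basis_apply]
  simp [Polynomial.coe_basisMonomials]

/-- Multiplication by `X` on `A[X]^n`, as an `A`-linear map. -/
noncomputable def mulX : (Fin n → A[X]) →ₗ[A] (Fin n → A[X]) :=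
  DistribSMul.toLinearMap A (Fin n → A[X]) (X : A[X])

@[simp] theorem mulX_apply (w : Fin n → A[X]) : mulX A n w = (X : A[X]) • w := rfl

theorem mulX_monoBasis (p : Σ _ : Fin n, ℕ) :
    mulX A n (monoBasis A n p) = monoBasis A n ⟨p.1, p.2 + 1⟩ := by
  rw [mulX_apply, monoBasis_apply, monoBasis_apply]
  ext j
  by_cases hj : j = p.1
  · subst hj
    simp [Polynomial.X_mul_monomial]
  · simp [Pi.single_eq_of_ne hj]

/-- The shifted coordinate map `w ↦ T^{-k} w` from `A[X]^n` to Laurent vectors. -/
noncomputable def shift (k : ℕ) : (Fin n → A[X]) →ₗ[A] ((Fin n × ℤ) →₀ A) :=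
  (monoBasis A n).constr A fun p => Finsupp.single (p.1, (p.2 : ℤ) - k) (1 : A)

theorem shift_monoBasis (k : ℕ) (p : Σ _ : Fin n, ℕ) :
    shift A n k (monoBasis A n p) = Finsupp.single (p.1, (p.2 : ℤ) - k) (1 : A) := by
  unfold shift
  rw [Module.Basis.constr_basis]

theorem shift_succ_comp_mulX (k : ℕ) : shift A n (k + 1) ∘ₗ mulX A n = shift A n k := by
  refine (monoBasis A n).ext fun p => ?_
  rw [LinearMap.comp_apply, mulX_monoBasis, shift_monoBasis, shift_monoBasis]
  congr 2
  push_cast
  ring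

theorem shift_succ_X_smul (k : ℕ) (w : Fin n → A[X]) :
    shift A n (k + 1) ((X : A[X]) • w) = shift A n k w := by
  have := congrArg (fun f => f w) (shift_succ_comp_mulX A n k)
  simpa using this

theorem shift_add_X_pow_smul (k j : ℕ) (w : Fin n → A[X]) :
    shift A n (k + j) ((X : A[X]) ^ j • w) = shift A n k w := by
  induction j generalizing w with
  | zero => simp
  | succ j ih =>
    rw [pow_succ', mul_smul, ← add_assoc, shift_succ_X_smul, ih]

end Shift

section Main

variable {N0 N1 N01 : Type v}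
  [AddCommGroup N0] [AddCommGroup N1] [AddCommGroup N01]
  [Module A N0] [Module A N1] [Module A N01]

/-- `T` as a unit of `End_A N01`. -/
def unitT (D : CechOps A N0 N1 N01) : (Module.End A N01)ˣ :=
  ⟨D.T, D.Tinv, D.T_mul_Tinv, D.Tinv_mul_T⟩

theorem unitT_zpow_sub (D : CechOps A N0 N1 N01) (m k : ℕ) :
    ((unitT D ^ ((m : ℤ) - k) : (Module.End A N01)ˣ) : Module.End A N01) =
      D.Tinv ^ k * D.T ^ m := by
  rw [zpow_sub, zpow_natCast, zpow_natCast, Units.val_mul, ← inv_pow, Units.val_pow_eq_pow_val,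
    Units.val_pow_eq_pow_val]
  have hcomm : Commute (D.T ^ m) (D.Tinv ^ k) := (D.commute_T_Tinv.pow_pow m k)
  exact hcomm.eq

variable {n : ℕ}

theorem pi_X_pow_smul (π : (Fin n → A[X]) →ₗ[A] N0) (E : Module.End A N0)
    (hπ : ∀ w, π ((X : A[X]) • w) = E (π w)) (j : ℕ) (w : Fin n → A[X]) :
    π ((X : A[X]) ^ j • w) = (E ^ j) (π w) := by
  induction j generalizing w with
  | zero => simp
  | succ j ih =>
    rw [pow_succ', mul_smul, hπ, ih, pow_succ', Module.End.mul_apply]

theorem iota_pow (ι : N0 →ₗ[A] (Fin n → A[X])) (E : Module.End A N0)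
    (hι : ∀ v, ι (E v) = (X : A[X]) • ι v) (j : ℕ) (v : N0) :
    ι ((E ^ j) v) = (X : A[X]) ^ j • ι v := by
  induction j generalizing v with
  | zero => simp
  | succ j ih =>
    rw [pow_succ', Module.End.mul_apply, hι, ih, pow_succ', mul_smul]

/-- The projection from Laurent vectors onto `N01`. -/
noncomputable def proj01 (D : CechOps A N0 N1 N01) (π : (Fin n → A[X]) →ₗ[A] N0) :
    ((Fin n × ℤ) →₀ A) →ₗ[A] N01 :=
  Finsupp.linearCombination A fun p : Fin n × ℤ =>
    ((unitT D ^ p.2 : (Module.End A N01)ˣ) : Module.End A N01)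
      (D.r0 (π (Pi.single p.1 (1 : A[X]))))

theorem proj01_comp_shift (D : CechOps A N0 N1 N01) (π : (Fin n → A[X]) →ₗ[A] N0)
    (hπ : ∀ w, π ((X : A[X]) • w) = D.X0 (π w)) (k : ℕ) :
    proj01 D π ∘ₗ shift A n k = (D.Tinv ^ k) ∘ₗ D.r0 ∘ₗ π := by
  refine (monoBasis A n).ext fun p => ?_
  rw [LinearMap.comp_apply, shift_monoBasis, proj01, Finsupp.linearCombination_single, one_smul,
    unitT_zpow_sub, Module.End.mul_apply, LinearMap.comp_apply, LinearMap.comp_apply,
    monoBasis_apply]
  congr 1
  have h1 : (Pi.single p.1 (monomial p.2 (1 : A)) : Fin n → A[X]) =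
      (X : A[X]) ^ p.2 • Pi.single p.1 (1 : A[X]) := by
    ext j
    by_cases hj : j = p.1
    · subst hj
      simp [Polynomial.X_pow_eq_monomial]
    · simp [Pi.single_eq_of_ne hj]
  rw [h1, pi_X_pow_smul π D.X0 hπ, D.r0_X0_pow]

/-- **K1b.** `N01` is projective over `A` (retract of `A[T;T⁻¹]^n`). -/
theorem projective_N01 (D : CechOps A N0 N1 N01) (h0 : IsFGProj D.X0)
    (hr0 : Function.Injective D.r0) : Module.Projective A N01 := by
  classical
  obtain ⟨n, ι, π, hπι, hι, hπ⟩ := h0
  -- choice of a denominator and numerator for every `z`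
  choose kz nz hz using D.loc0
  -- independence of the choice
  have key : ∀ (z : N01) (k : ℕ) (m : N0), (D.T ^ k) z = D.r0 m →
      shift A n (kz z) (ι (nz z)) = shift A n k (ι m) := by
    intro z k m hkm
    have h1 : (D.X0 ^ k) (nz z) = (D.X0 ^ kz z) m := by
      apply hr0
      rw [D.r0_X0_pow, D.r0_X0_pow, ← hz z, ← hkm, ← Module.End.mul_apply,
        ← Module.End.mul_apply, ← pow_add, ← pow_add, add_comm]
    calc shift A n (kz z) (ι (nz z))
        = shift A n (kz z + k) ((X : A[X]) ^ k • ι (nz z)) :=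
          (shift_add_X_pow_smul A n (kz z) k _).symm
      _ = shift A n (kz z + k) (ι ((D.X0 ^ k) (nz z))) := by rw [iota_pow ι D.X0 hι]
      _ = shift A n (k + kz z) (ι ((D.X0 ^ kz z) m)) := by rw [h1, add_comm]
      _ = shift A n (k + kz z) ((X : A[X]) ^ kz z • ι m) := by rw [iota_pow ι D.X0 hι]
      _ = shift A n k (ι m) := shift_add_X_pow_smul A n k (kz z) _
  -- the coordinate map
  let ι01 : N01 →ₗ[A] ((Fin n × ℤ) →₀ A) :=
    { toFun := fun z => shift A n (kz z) (ι (nz z))
      map_add' := by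
        intro z1 z2
        have h12 : (D.T ^ (kz z1 + kz z2)) (z1 + z2) =
            D.r0 ((D.X0 ^ kz z2) (nz z1) + (D.X0 ^ kz z1) (nz z2)) := by
          rw [map_add, map_add, D.r0_X0_pow, D.r0_X0_pow, ← hz z1, ← hz z2,
            ← Module.End.mul_apply, ← Module.End.mul_apply, ← pow_add, ← pow_add,
            add_comm (kz z2) (kz z1)]
        rw [key (z1 + z2) _ _ h12, map_add, map_add, iota_pow ι D.X0 hι, iota_pow ι D.X0 hι,
          shift_add_X_pow_smul, add_comm (kz z1) (kz z2), shift_add_X_pow_smul]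
      map_smul' := by
        intro a z
        have h1 : (D.T ^ kz z) (a • z) = D.r0 (a • nz z) := by
          rw [map_smul, map_smul, hz z]
        rw [key (a • z) _ _ h1, map_smul, map_smul, RingHom.id_apply] }
  have hsplit : (proj01 D π) ∘ₗ ι01 = LinearMap.id := by
    ext z
    show proj01 D π (shift A n (kz z) (ι (nz z))) = z
    have := congrArg (fun f => f (ι (nz z))) (proj01_comp_shift D π hπ (kz z))
    simp only [LinearMap.comp_apply] at this
    rw [this]
    have hπι' : π (ι (nz z)) = nz z := by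
      have := congrArg (fun f => f (nz z)) hπι
      simpa using this
    rw [hπι', ← hz z, D.Tinv_pow_T_pow_apply]
  exact Module.Projective.of_split ι01 (proj01 D π) hsplit

end Main

end Fermat.Agent.S25.H490
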