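/-
S25, block ALGCHARTS (helper490): abstract core of PT-ISO.  Mathlib-only.

`DivGen J s` : the element `s` of the `R`-module `N` is a "section with divisor `J`":
`R s = J N`, `s` is torsion-free, and `J` acts faithfully on elements of `N`.
Two modules with sections of the same divisor are canonically isomorphic (`DivGen.equiv`),
by an isomorphism matching the sections.  No localisation is used.
-/
import Mathlib

set_option autoImplicit false

namespace Fermat.Agent.S25.H490

section DivGen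

variable {R : Type*} [CommRing R] {N N' : Type*} [AddCommGroup N] [Module R N]
  [AddCommGroup N'] [Module R N']

/-- `s` is a section of `N` with divisor `J`. -/
structure DivGen (J : Ideal R) (s : N) : Prop where
  span_eq : Submodule.span R {s} = J • (⊤ : Submodule R N)
  tf : ∀ r : R, r • s = 0 → r = 0
  sep : ∀ m : N, (∀ j ∈ J, j • m = 0) → m = 0

/-- The graph of the canonical isomorphism. -/
def DivRel (J : Ideal R) (s : N) (s' : N') (n : N) (n' : N') : Prop :=
  ∀ j ∈ J, ∀ r : R, j • n = r • s → j • n' = r • s'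

namespace DivGen

variable {J : Ideal R} {s : N} {s' : N'}

theorem exists_coeff (h : DivGen J s) (n : N) {j : R} (hj : j ∈ J) : ∃ r : R, j • n = r • s := by
  have hmem : j • n ∈ J • (⊤ : Submodule R N) := Submodule.smul_mem_smul hj Submodule.mem_top
  rw [← h.span_eq, Submodule.mem_span_singleton] at hmem
  obtain ⟨r, hr⟩ := hmem
  exact ⟨r, hr.symm⟩

theorem self_mem (h : DivGen J s) : s ∈ J • (⊤ : Submodule R N) := by
  rw [← h.span_eq]
  exact Submodule.mem_span_singleton_self s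

theorem rel_exists (h : DivGen J s) (h' : DivGen J s') (n : N) : ∃ n' : N', DivRel J s s' n n' := by
  have key : ∀ z ∈ J • (⊤ : Submodule R N'), ∃ n' : N', ∀ j ∈ J, ∀ r : R, j • n = r • s →
      j • n' = r • z := by
    intro z hz
    refine Submodule.smul_induction_on hz ?_ ?_
    · intro j₀ hj₀ m' _
      obtain ⟨r₀, hr₀⟩ := h.exists_coeff n hj₀
      refine ⟨r₀ • m', fun j hj r hr => ?_⟩
      have h1 : j * r₀ = r * j₀ := by
        have : (j * r₀ - r * j₀) • s = 0 := by
          rw [sub_smul, mul_smul, mul_comm r j₀, mul_smul, ← hr₀, ← hr, smul_comm]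
          exact sub_self _
        exact sub_eq_zero.mp (h.tf _ this)
      rw [smul_smul, smul_smul, h1]
    · rintro z₁ z₂ ⟨n₁, hn₁⟩ ⟨n₂, hn₂⟩
      exact ⟨n₁ + n₂, fun j hj r hr => by rw [smul_add, hn₁ j hj r hr, hn₂ j hj r hr, smul_add]⟩
  exact key s' h'.self_mem

theorem rel_unique (h : DivGen J s) (h' : DivGen J s') {n : N} {n₁ n₂ : N'}
    (h₁ : DivRel J s s' n n₁) (h₂ : DivRel J s s' n n₂) : n₁ = n₂ := by
  rw [← sub_eq_zero]
  refine h'.sep _ fun j hj => ?_
  obtain ⟨r, hr⟩ := h.exists_coeff n hj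
  rw [smul_sub, h₁ j hj r hr, h₂ j hj r hr, sub_self]

theorem rel_symm (h : DivGen J s) (h' : DivGen J s') {n : N} {n' : N'}
    (hr : DivRel J s s' n n') : DivRel J s' s n' n := by
  intro j hj r' hr'
  obtain ⟨r, hr₁⟩ := h.exists_coeff n hj
  have h2 := hr j hj r hr₁
  have : (r - r') • s' = 0 := by rw [sub_smul, ← h2, ← hr', sub_self]
  rw [hr₁, sub_eq_zero.mp (h'.tf _ this)]

theorem rel_add (h : DivGen J s) {n₁ n₂ : N} {n₁' n₂' : N'}
    (h₁ : DivRel J s s' n₁ n₁') (h₂ : DivRel J s s' n₂ n₂') :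
    DivRel J s s' (n₁ + n₂) (n₁' + n₂') := by
  intro j hj r hr
  obtain ⟨r₁, hr₁⟩ := h.exists_coeff n₁ hj
  obtain ⟨r₂, hr₂⟩ := h.exists_coeff n₂ hj
  have : (r₁ + r₂ - r) • s = 0 := by
    rw [sub_smul, add_smul, ← hr₁, ← hr₂, ← hr, smul_add, sub_self]
  have hr' : r = r₁ + r₂ := (sub_eq_zero.mp (h.tf _ this)).symm
  rw [smul_add, h₁ j hj r₁ hr₁, h₂ j hj r₂ hr₂, hr', add_smul]

theorem rel_smul (h : DivGen J s) (c : R) {n : N} {n' : N'}
    (h₁ : DivRel J s s' n n') : DivRel J s s' (c • n) (c • n') := by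
  intro j hj r hr
  obtain ⟨r₁, hr₁⟩ := h.exists_coeff n hj
  have : (c * r₁ - r) • s = 0 := by
    rw [sub_smul, mul_smul, ← hr₁, ← hr, smul_comm, sub_self]
  have hr' : r = c * r₁ := (sub_eq_zero.mp (h.tf _ this)).symm
  rw [smul_comm, h₁ j hj r₁ hr₁, hr', mul_smul]

theorem rel_self (h : DivGen J s) : DivRel J s s' s s' := by
  intro j hj r hr
  have : (j - r) • s = 0 := by rw [sub_smul, hr, sub_self]
  rw [sub_eq_zero.mp (h.tf _ this)]

/-- The canonical map `N → N'`. -/
noncomputable def toFun (h : DivGen J s) (h' : DivGen J s') (n : N) : N' :=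
  (h.rel_exists h' n).choose

theorem toFun_rel (h : DivGen J s) (h' : DivGen J s') (n : N) :
    DivRel J s s' n (h.toFun h' n) :=
  (h.rel_exists h' n).choose_spec

/-- The canonical linear map `N → N'`. -/
noncomputable def toLin (h : DivGen J s) (h' : DivGen J s') : N →ₗ[R] N' where
  toFun := h.toFun h'
  map_add' n₁ n₂ := h.rel_unique h' (h.toFun_rel h' _)
    (h.rel_add (h.toFun_rel h' n₁) (h.toFun_rel h' n₂))
  map_smul' c n := h.rel_unique h' (h.toFun_rel h' _) (h.rel_smul c (h.toFun_rel h' n))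

theorem toLin_rel (h : DivGen J s) (h' : DivGen J s') (n : N) :
    DivRel J s s' n (h.toLin h' n) := h.toFun_rel h' n

/-- **Canonical isomorphism** of two modules carrying sections with the same divisor. -/
noncomputable def equiv (h : DivGen J s) (h' : DivGen J s') : N ≃ₗ[R] N' :=
  LinearEquiv.ofLinearMap (h.toLin h') (h'.toLin h)
    (by
      ext n'
      exact h.rel_unique h' (h.toLin_rel h' _) (h'.rel_symm h (h'.toLin_rel h n')))
    (by
      ext n
      exact h'.rel_unique h (h'.toLin_rel h _) (h.rel_symm h' (h.toLin_rel h' n)))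

theorem equiv_rel (h : DivGen J s) (h' : DivGen J s') (n : N) :
    DivRel J s s' n (h.equiv h' n) := h.toLin_rel h' n

theorem equiv_apply_self (h : DivGen J s) (h' : DivGen J s') : h.equiv h' s = s' :=
  h.rel_unique h' (h.equiv_rel h' s) h.rel_self

end DivGen

end DivGen

section BaseChange

variable {R S : Type*} [CommRing R] [CommRing S] [Algebra R S]
  {M M' P P' : Type*} [AddCommGroup M] [AddCommGroup M'] [AddCommGroup P] [AddCommGroup P']
  [Module R M] [Module R M'] [Module R P] [Module R P'] [Module S P] [Module S P']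
  [IsScalarTower R S P] [IsScalarTower R S P']

/-- An isomorphism of modules extends to their base changes. -/
noncomputable def bcEquiv {f : M →ₗ[R] P} {f' : M' →ₗ[R] P'} (hf : IsBaseChange S f)
    (hf' : IsBaseChange S f') (e : M ≃ₗ[R] M') : P ≃ₗ[S] P' :=
  LinearEquiv.ofLinearMap (hf.lift (f' ∘ₗ e.toLinearMap)) (hf'.lift (f ∘ₗ e.symm.toLinearMap))
    (hf'.algHom_ext _ _ fun x => by simp [IsBaseChange.lift_eq])
    (hf.algHom_ext _ _ fun x => by simp [IsBaseChange.lift_eq])

theorem bcEquiv_apply {f : M →ₗ[R] P} {f' : M' →ₗ[R] P'} (hf : IsBaseChange S f)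
    (hf' : IsBaseChange S f') (e : M ≃ₗ[R] M') (m : M) :
    bcEquiv hf hf' e (f m) = f' (e m) := by
  simp [bcEquiv, IsBaseChange.lift_eq]

theorem bcEquiv_symm_apply {f : M →ₗ[R] P} {f' : M' →ₗ[R] P'} (hf : IsBaseChange S f)
    (hf' : IsBaseChange S f') (e : M ≃ₗ[R] M') (m' : M') :
    (bcEquiv hf hf' e).symm (f' m') = f (e.symm m') := by
  rw [LinearEquiv.symm_apply_eq, bcEquiv_apply, LinearEquiv.apply_symm_apply]

/-- An isomorphism of the ambient modules which matches two submodules (given as images of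
injective maps) restricts to an isomorphism. -/
noncomputable def restrictEquiv {f : M →ₗ[R] P} {f' : M' →ₗ[R] P'}
    (hinj' : Function.Injective f') (E : P ≃ₗ[S] P')
    (h₁ : ∀ m, E (f m) ∈ LinearMap.range f') : M →ₗ[R] M' :=
  (LinearEquiv.ofInjective f' hinj').symm.toLinearMap ∘ₗ
    LinearMap.codRestrict (LinearMap.range f') ((E.restrictScalars R).toLinearMap ∘ₗ f) h₁

theorem restrictEquiv_apply {f : M →ₗ[R] P} {f' : M' →ₗ[R] P'}
    (hinj' : Function.Injective f') (E : P ≃ₗ[S] P')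
    (h₁ : ∀ m, E (f m) ∈ LinearMap.range f') (m : M) :
    f' (restrictEquiv hinj' E h₁ m) = E (f m) := by
  have := (LinearEquiv.ofInjective f' hinj').apply_symm_apply
    (LinearMap.codRestrict (LinearMap.range f') ((E.restrictScalars R).toLinearMap ∘ₗ f) h₁ m)
  have h2 := congrArg Subtype.val this
  simp only [LinearEquiv.ofInjective_apply, LinearMap.codRestrict_apply, LinearMap.coe_comp,
    LinearEquiv.coe_coe, Function.comp_apply, LinearEquiv.restrictScalars_apply] at h2
  exact h2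

/-- The restricted isomorphism. -/
noncomputable def restrictLinearEquiv {f : M →ₗ[R] P} {f' : M' →ₗ[R] P'}
    (hinj : Function.Injective f) (hinj' : Function.Injective f') (E : P ≃ₗ[S] P')
    (h₁ : ∀ m, E (f m) ∈ LinearMap.range f')
    (h₂ : ∀ m', E.symm (f' m') ∈ LinearMap.range f) : M ≃ₗ[R] M' :=
  LinearEquiv.ofLinearMap (restrictEquiv hinj' E h₁) (restrictEquiv hinj E.symm h₂)
    (by
      ext m'
      apply hinj'
      simp [restrictEquiv_apply])
    (by
      ext m
      apply hinj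
      simp [restrictEquiv_apply])

theorem restrictLinearEquiv_apply {f : M →ₗ[R] P} {f' : M' →ₗ[R] P'}
    (hinj : Function.Injective f) (hinj' : Function.Injective f') (E : P ≃ₗ[S] P')
    (h₁ : ∀ m, E (f m) ∈ LinearMap.range f')
    (h₂ : ∀ m', E.symm (f' m') ∈ LinearMap.range f) (m : M) :
    f' (restrictLinearEquiv hinj hinj' E h₁ h₂ m) = E (f m) :=
  restrictEquiv_apply hinj' E h₁ m

end BaseChange

section Range

variable {R₁ : Type*} [CommRing R₁] {N₁ N₀₁ : Type*} [AddCommGroup N₁] [Module R₁ N₁]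
  [AddCommGroup N₀₁] [Module R₁ N₀₁]

/-- Sheaf property for the cover `D(y) ∪ D(v)`, `v ≡ 1 mod y`: an element of the localisation
`N₀₁ = N₁[1/y]` lies in `N₁` iff `v` times it lies in `R₁ s₁`, when `v N₁ ⊆ R₁ s₁`. -/
theorem mem_range_iff_of_sub_one_mem (r₁ : N₁ →ₗ[R₁] N₀₁) (y v : R₁)
    (hv : v - 1 ∈ Ideal.span {y}) (s₁ : N₁)
    (hloc : ∀ z : N₀₁, ∃ (a : ℕ) (n : N₁), y ^ a • z = r₁ n)
    (hgen : ∀ n : N₁, ∃ ρ : R₁, v • n = ρ • s₁) (z : N₀₁) :
    z ∈ LinearMap.range r₁ ↔ ∃ ρ : R₁, v • z = ρ • r₁ s₁ := by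
  constructor
  · rintro ⟨n, rfl⟩
    obtain ⟨ρ, hρ⟩ := hgen n
    exact ⟨ρ, by rw [← map_smul, hρ, map_smul]⟩
  · rintro ⟨ρ, hρ⟩
    obtain ⟨a, n, hn⟩ := hloc z
    obtain ⟨c, hc⟩ := Ideal.mem_span_singleton'.mp hv
    have hcop : IsCoprime v (y ^ a) := by
      apply IsCoprime.pow_right
      exact ⟨1, -c, by rw [one_mul, neg_mul, hc]; ring⟩
    obtain ⟨α, β, hαβ⟩ := hcop
    refine ⟨α • ρ • s₁ + β • n, ?_⟩
    rw [map_add, map_smul, map_smul, map_smul, ← hρ, ← hn, smul_smul, smul_smul, ← add_smul, hαβ,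
      one_smul]

/-- Nakayama: if `s₁` generates `N₁` modulo `y`, some `v ≡ 1 mod y` maps `N₁` into `R₁ s₁`. -/
theorem exists_sub_one_mem_forall_smul_eq [Module.Finite R₁ N₁] (y : R₁) (s₁ : N₁)
    (hgen : ∀ c : N₁, ∃ r : R₁, c - r • s₁ ∈ (Ideal.span {y} • ⊤ : Submodule R₁ N₁)) :
    ∃ v : R₁, v - 1 ∈ Ideal.span {y} ∧ ∀ n : N₁, ∃ ρ : R₁, v • n = ρ • s₁ := by
  set Q := N₁ ⧸ Submodule.span R₁ {s₁} with hQ
  have hle : (⊤ : Submodule R₁ Q) ≤ Ideal.span {y} • (⊤ : Submodule R₁ Q) := by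
    rintro q -
    obtain ⟨c, rfl⟩ := Submodule.Quotient.mk_surjective _ q
    obtain ⟨r, hr⟩ := hgen c
    have h1 : (Submodule.span R₁ {s₁}).mkQ (c - r • s₁) ∈
        Submodule.map (Submodule.span R₁ {s₁}).mkQ (Ideal.span {y} • ⊤) :=
      Submodule.mem_map_of_mem hr
    rw [Submodule.map_smul'', Submodule.map_top, Submodule.range_mkQ] at h1
    have h2 : (Submodule.span R₁ {s₁}).mkQ (c - r • s₁) = Submodule.Quotient.mk c := by
      rw [map_sub, Submodule.mkQ_apply, Submodule.mkQ_apply, sub_eq_self,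
        Submodule.Quotient.mk_eq_zero]
      exact Submodule.smul_mem _ _ (Submodule.mem_span_singleton_self s₁)
    rwa [h2] at h1
  obtain ⟨v, hv, hvq⟩ := Submodule.exists_sub_one_mem_and_smul_eq_zero_of_fg_of_le_smul
    (Ideal.span {y}) (⊤ : Submodule R₁ Q) Module.Finite.fg_top hle
  refine ⟨v, hv, fun n => ?_⟩
  have h3 := hvq (Submodule.Quotient.mk n) Submodule.mem_top
  rw [← Submodule.Quotient.mk_smul, Submodule.Quotient.mk_eq_zero,
    Submodule.mem_span_singleton] at h3
  obtain ⟨ρ, hρ⟩ := h3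
  exact ⟨ρ, hρ.symm⟩

end Range

section Separated

open Polynomial

variable {A : Type*} [CommRing A] {R₁ : Type*} [CommRing R₁] [Algebra A R₁]

theorem pi_eq_zero_of_forall_X_pow_smul {d : ℕ} (w : Fin d → A[X])
    (h : ∀ j : ℕ, ∃ w' : Fin d → A[X], w = (X : A[X]) ^ j • w') : w = 0 := by
  funext i
  by_contra hne
  obtain ⟨N, hN⟩ : ∃ N, N = (w i).natDegree + 1 := ⟨_, rfl⟩
  obtain ⟨w', hw'⟩ := h N
  have hwi := congrFun hw' i
  rw [Pi.smul_apply, smul_eq_mul] at hwi
  have hdvd : (X : A[X]) ^ N ∣ w i := ⟨w' i, hwi⟩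
  rw [Polynomial.X_pow_dvd_iff] at hdvd
  apply hne
  ext n
  by_cases hn : n < N
  · simpa using hdvd n hn
  · simp only [Pi.zero_apply, coeff_zero]
    exact Polynomial.coeff_eq_zero_of_natDegree_lt (by omega)

/-- In a ring which is `y`-equivariantly a polynomial module `A[X]^d`, elements `≡ 1 mod y`
are nonzerodivisors. -/
theorem eq_zero_of_mul_eq_zero_of_sub_one_mem {d : ℕ} (y : R₁)
    (Φ : R₁ ≃ₗ[A] (Fin d → A[X])) (hΦ : ∀ z, Φ (y * z) = (X : A[X]) • Φ z) (v r : R₁)
    (hv : v - 1 ∈ Ideal.span {y}) (h : v * r = 0) : r = 0 := by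
  obtain ⟨c, hc⟩ := Ideal.mem_span_singleton'.mp hv
  have hr : r = y * (-c * r) := by
    have : v = 1 + c * y := by rw [hc]; ring
    rw [this] at h
    linear_combination h
  have key : ∀ j : ℕ, ∃ r' : R₁, r = y ^ j * r' := by
    intro j
    induction j with
    | zero => exact ⟨r, by simp⟩
    | succ j ih =>
      obtain ⟨r', hr'⟩ := ih
      refine ⟨-c * r', ?_⟩
      calc r = y * (-c * r) := hr
        _ = y * (-c * (y ^ j * r')) := by rw [← hr']
        _ = y ^ (j + 1) * (-c * r') := by ring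
  have hpow : ∀ (j : ℕ) (z : R₁), Φ (y ^ j * z) = (X : A[X]) ^ j • Φ z := by
    intro j
    induction j with
    | zero => intro z; simp
    | succ j ih =>
      intro z
      rw [pow_succ', mul_assoc, hΦ, ih, pow_succ', mul_smul]
  apply Φ.injective
  rw [map_zero]
  refine pi_eq_zero_of_forall_X_pow_smul _ fun j => ?_
  obtain ⟨r', hr'⟩ := key j
  exact ⟨Φ r', by rw [← hpow, ← hr']⟩

end Separated

section Faithful

variable {R : Type*} [CommRing R] {M : Type*} [AddCommGroup M] [Module R M]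

/-- An invertible module is faithful. -/
theorem eq_zero_of_forall_smul_eq_zero [Module.Invertible R M] (r : R)
    (h : ∀ m : M, r • m = 0) : r = 0 := by
  obtain ⟨t, ht⟩ := (Module.Invertible.bijective (R := R) (M := M)).2 1
  have h1 : ∀ t : TensorProduct R (Module.Dual R M) M,
      r • (contractLeft R M t) = 0 := by
    intro t
    induction t using TensorProduct.induction_on with
    | zero => simp
    | tmul φ m =>
      rw [contractLeft_apply, smul_eq_mul, ← smul_eq_mul, ← map_smul, h, map_zero]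
    | add t t' ht ht' => rw [map_add, smul_add, ht, ht', add_zero]
  have := h1 t
  rwa [ht, smul_eq_mul, mul_one] at this

end Faithful

end Fermat.Agent.S25.H490
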