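/-
S25, block ALGCHARTS, leaf PT-ISO (helper490): two gluing data with the same Hilbert
coordinates are isomorphic.  Elementary route (no localisation of modules, no McCoy):
* elements `≡ 1 mod y` of `A ⊗ B₁` are nonzerodivisors (`y`-adic separatedness);
* hence the sections `s₀`, `s₁`, `σ = r₁ s₁` are torsion-free (SH1 / INJ);
* `N₀ ≅ N₀'` by `DivGen.equiv` (both carry a section with divisor `J`);
* `N₀₁ ≅ N₀₁'` by base change, and it matches `r₁ N₁` with `r₁' N₁'` by the sheaf property for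
  the cover `D(y) ∪ D(v)` of `Spec (A ⊗ B₁)`.
-/
import Fermat.Agent.S25.H11.ACDefs
import Fermat.Agent.S25.H250.AdapterProj
import Fermat.Agent.S25.H490.DivIso

set_option autoImplicit false
set_option linter.style.haveILetI false
set_option linter.unusedSectionVars false

universe u

open scoped TensorProduct
open Polynomial

namespace Fermat.Agent.S25.H490

open Fermat.Agent.S25 Fermat.Agent.S25.H11

variable {k : Type u} [Field k] [IsAlgClosed k]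
  {B₀ B₁ B₀₁ : Type u} [CommRing B₀] [CommRing B₁] [CommRing B₀₁]
  [Algebra k B₀] [Algebra k B₁] [Algebra k B₀₁] [Algebra B₀ B₀₁] [Algebra B₁ B₀₁]
  [IsScalarTower k B₀ B₀₁] [IsScalarTower k B₁ B₀₁]
  {x : B₀} {y : B₁} {e : B₁ →ₐ[k] k}

section Facts

variable {A : Type u} [CommRing A] [Algebra k A]

/-- Elements `≡ 1 mod y` of `A ⊗ B₁` are nonzerodivisors. -/
theorem eq_zero_of_mul_eq_zero_of_sub_one_mem_yElt (hC : IsCurveChart k B₀ B₁ B₀₁ x y e)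
    (v r : A ⊗[k] B₁) (hv : v - 1 ∈ Ideal.span {yElt k A y}) (h : v * r = 0) : r = 0 := by
  haveI := hC.isDomain₁
  obtain ⟨n, φ, hφ⟩ := H250.exists_equivariant_equiv (H250.aeval_y_injective hC) hC.finite₁
  obtain ⟨Φ, hΦ⟩ := H250.exists_equivariant_equiv_tensor φ hφ A
  exact eq_zero_of_mul_eq_zero_of_sub_one_mem (yElt k A y) Φ hΦ v r hv h

theorem algebraMap_yElt :
    algebraMap (A ⊗[k] B₁) (A ⊗[k] B₀₁) (yElt k A y) = (1 : A) ⊗ₜ[k] algebraMap B₁ B₀₁ y :=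
  H250.algebraMap_tensor_tmul A B₁ B₀₁ 1 y

theorem xElt_mul_yElt (hC : IsCurveChart k B₀ B₁ B₀₁ x y e) :
    xElt k B₀₁ A x * algebraMap (A ⊗[k] B₁) (A ⊗[k] B₀₁) (yElt k A y) = 1 := by
  rw [algebraMap_yElt, xElt, Algebra.TensorProduct.tmul_mul_tmul, one_mul, hC.mul_eq_one]
  rfl

theorem isUnit_xElt (hC : IsCurveChart k B₀ B₁ B₀₁ x y e) : IsUnit (xElt k B₀₁ A x) :=
  IsUnit.of_mul_eq_one _ (xElt_mul_yElt hC)

theorem isUnit_algebraMap_yElt (hC : IsCurveChart k B₀ B₁ B₀₁ x y e) :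
    IsUnit (algebraMap (A ⊗[k] B₁) (A ⊗[k] B₀₁) (yElt k A y)) :=
  IsUnit.of_mul_eq_one _ (by rw [mul_comm]; exact xElt_mul_yElt hC)

theorem algebraMap_R0_injective (hC : IsCurveChart k B₀ B₁ B₀₁ x y e) :
    Function.Injective (algebraMap (A ⊗[k] B₀) (A ⊗[k] B₀₁)) :=
  H250.r0_injective hC (GlueDatum.unit A (A ⊗[k] B₀) (A ⊗[k] B₁) (A ⊗[k] B₀₁))

variable (G : CurveGD k B₀ B₁ B₀₁ A)

theorem r1_inj (hC : IsCurveChart k B₀ B₁ B₀₁ x y e) : Function.Injective G.r₁ :=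
  H250.r1_injective hC G

theorem r0_inj (hC : IsCurveChart k B₀ B₁ B₀₁ x y e) : Function.Injective G.r₀ :=
  H250.r0_injective hC G

/-- Localisation property of `r₁`, with `R₁`-scalars. -/
theorem exists_yElt_pow_smul_eq (hC : IsCurveChart k B₀ B₁ B₀₁ x y e) (z : G.N₀₁) :
    ∃ (a : ℕ) (n : G.N₁), (yElt k A y) ^ a • z = G.r₁ n := by
  haveI := hC.away₀
  haveI := hC.away₁
  obtain ⟨a, ha⟩ := H250.exists_pow_smul_eq (A := A) B₁ B₀₁ y G.r₁ G.isBaseChange₁ z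
  obtain ⟨n, hn⟩ := ha a le_rfl
  refine ⟨a, n, ?_⟩
  rw [← hn, ← algebraMap_smul (A ⊗[k] B₀₁) ((yElt k A y) ^ a) z, map_pow, algebraMap_yElt]

/-- The data of a section with divisor `J` not vanishing on `E₀`. -/
structure SecDiv (x : B₀) (y : B₁) (n : ℕ) (G : CurveGD k B₀ B₁ B₀₁ A) (s : G.N₀ × G.N₁)
    (J : Ideal (A ⊗[k] B₀)) : Prop where
  mem : s ∈ sec x n G
  gen : GenModY y G s.2
  span : Submodule.span (A ⊗[k] B₀) {s.1} = J • (⊤ : Submodule (A ⊗[k] B₀) G.N₀)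

variable {G} {n : ℕ} {s : G.N₀ × G.N₁} {J : Ideal (A ⊗[k] B₀)}

/-- (F1) Nakayama. -/
theorem SecDiv.exists_v (h : SecDiv x y n G s J) :
    ∃ v : A ⊗[k] B₁, v - 1 ∈ Ideal.span {yElt k A y} ∧
      ∀ m : G.N₁, ∃ ρ : A ⊗[k] B₁, v • m = ρ • s.2 := by
  haveI := G.invertible₁
  exact exists_sub_one_mem_forall_smul_eq (yElt k A y) s.2 h.gen

/-- (F2) `s₁` is torsion-free. -/
theorem SecDiv.tf₁ (hC : IsCurveChart k B₀ B₁ B₀₁ x y e) (h : SecDiv x y n G s J)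
    (r : A ⊗[k] B₁) (hr : r • s.2 = 0) : r = 0 := by
  haveI := G.invertible₁
  obtain ⟨v, hv, hgen⟩ := h.exists_v
  have h1 : v * r = 0 := by
    apply eq_zero_of_forall_smul_eq_zero (M := G.N₁)
    intro m
    obtain ⟨ρ, hρ⟩ := hgen m
    rw [mul_comm, mul_smul, hρ, smul_comm, hr, smul_zero]
  exact eq_zero_of_mul_eq_zero_of_sub_one_mem_yElt hC v r hv h1

/-- (F3) `σ = r₁ s₁` is torsion-free over `A ⊗ B₀₁`. -/
theorem SecDiv.tf₀₁ (hC : IsCurveChart k B₀ B₁ B₀₁ x y e) (h : SecDiv x y n G s J)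
    (ρ' : A ⊗[k] B₀₁) (hρ' : ρ' • G.r₁ s.2 = 0) : ρ' = 0 := by
  haveI := hC.away₀
  haveI := hC.away₁
  haveI : IsLocalization.Away ((1 : A) ⊗ₜ[k] y : A ⊗[k] B₁) (A ⊗[k] B₀₁) :=
    H250.isLocalization_away_tensor B₁ B₀₁ y
  obtain ⟨a, ρ₁, hρ₁⟩ := IsLocalization.Away.surj ((1 : A) ⊗ₜ[k] y : A ⊗[k] B₁) ρ'
  have h1 : ρ₁ • G.r₁ s.2 = 0 := by
    rw [← algebraMap_smul (A ⊗[k] B₀₁) ρ₁ (G.r₁ s.2), ← hρ₁, mul_comm, mul_smul, hρ', smul_zero]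
  have h2 : ρ₁ = 0 := by
    apply h.tf₁ hC
    apply r1_inj G hC
    rw [map_smul, h1, map_zero]
  rw [h2, map_zero] at hρ₁
  have hu : IsUnit (algebraMap (A ⊗[k] B₁) (A ⊗[k] B₀₁) ((1 : A) ⊗ₜ[k] y) ^ a) :=
    (isUnit_algebraMap_yElt (A := A) hC).pow a
  exact (hu.mul_left_eq_zero).mp hρ₁

theorem SecDiv.r₀_eq (h : SecDiv x y n G s J) :
    G.r₀ s.1 = xElt k B₀₁ A x ^ n • G.r₁ s.2 := mem_sec.mp h.mem

/-- (F4) `s₀` is torsion-free. -/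
theorem SecDiv.tf₀ (hC : IsCurveChart k B₀ B₁ B₀₁ x y e) (h : SecDiv x y n G s J)
    (r : A ⊗[k] B₀) (hr : r • s.1 = 0) : r = 0 := by
  apply algebraMap_R0_injective (A := A) hC
  rw [map_zero]
  have h1 : (algebraMap (A ⊗[k] B₀) (A ⊗[k] B₀₁) r * xElt k B₀₁ A x ^ n) • G.r₁ s.2 = 0 := by
    rw [mul_smul, ← h.r₀_eq, algebraMap_smul, ← map_smul, hr, map_zero]
  have h2 := h.tf₀₁ hC _ h1
  exact (((isUnit_xElt (A := A) hC).pow n).mul_left_eq_zero).mp h2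

/-- (F5) `J` acts faithfully on elements of `N₀`. -/
theorem SecDiv.sep₀ (hC : IsCurveChart k B₀ B₁ B₀₁ x y e) (h : SecDiv x y n G s J)
    (m : G.N₀) (hm : ∀ j ∈ J, j • m = 0) : m = 0 := by
  haveI := G.invertible₀
  rw [← Module.forall_dual_apply_eq_zero_iff (A ⊗[k] B₀)]
  intro φ
  apply h.tf₀ hC
  have hs : s.1 ∈ J • (⊤ : Submodule (A ⊗[k] B₀) G.N₀) := by
    rw [← h.span]
    exact Submodule.mem_span_singleton_self _
  refine Submodule.smul_induction_on hs ?_ ?_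
  · intro j hj z _
    have : φ m * j = 0 := by
      rw [mul_comm, ← smul_eq_mul, ← map_smul, hm j hj, map_zero]
    rw [smul_smul, this, zero_smul]
  · intro z z' hz hz'
    rw [smul_add, hz, hz', add_zero]

theorem SecDiv.divGen (hC : IsCurveChart k B₀ B₁ B₀₁ x y e) (h : SecDiv x y n G s J) :
    DivGen J s.1 :=
  ⟨h.span, h.tf₀ hC, h.sep₀ hC⟩

end Facts

section Iso

variable {A : Type u} [CommRing A] [Algebra k A]
  {G G' : CurveGD k B₀ B₁ B₀₁ A} {n : ℕ} {s : G.N₀ × G.N₁} {s' : G'.N₀ × G'.N₁}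
  {J : Ideal (A ⊗[k] B₀)}

/-- The isomorphism on the first chart. -/
noncomputable def iso₀ (hC : IsCurveChart k B₀ B₁ B₀₁ x y e) (h : SecDiv x y n G s J)
    (h' : SecDiv x y n G' s' J) : G.N₀ ≃ₗ[A ⊗[k] B₀] G'.N₀ :=
  (h.divGen hC).equiv (h'.divGen hC)

theorem iso₀_apply (hC : IsCurveChart k B₀ B₁ B₀₁ x y e) (h : SecDiv x y n G s J)
    (h' : SecDiv x y n G' s' J) : iso₀ hC h h' s.1 = s'.1 :=
  (h.divGen hC).equiv_apply_self (h'.divGen hC)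

/-- The isomorphism on the intersection. -/
noncomputable def iso₀₁ (hC : IsCurveChart k B₀ B₁ B₀₁ x y e) (h : SecDiv x y n G s J)
    (h' : SecDiv x y n G' s' J) : G.N₀₁ ≃ₗ[A ⊗[k] B₀₁] G'.N₀₁ :=
  bcEquiv G.isBaseChange₀ G'.isBaseChange₀ (iso₀ hC h h')

theorem iso₀₁_r₀ (hC : IsCurveChart k B₀ B₁ B₀₁ x y e) (h : SecDiv x y n G s J)
    (h' : SecDiv x y n G' s' J) (m : G.N₀) :
    iso₀₁ hC h h' (G.r₀ m) = G'.r₀ (iso₀ hC h h' m) :=
  bcEquiv_apply _ _ _ m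

theorem iso₀₁_symm_r₀ (hC : IsCurveChart k B₀ B₁ B₀₁ x y e) (h : SecDiv x y n G s J)
    (h' : SecDiv x y n G' s' J) (m : G'.N₀) :
    (iso₀₁ hC h h').symm (G'.r₀ m) = G.r₀ ((iso₀ hC h h').symm m) :=
  bcEquiv_symm_apply _ _ _ m

/-- (F7) the isomorphism matches `σ` and `σ'`. -/
theorem iso₀₁_σ (hC : IsCurveChart k B₀ B₁ B₀₁ x y e) (h : SecDiv x y n G s J)
    (h' : SecDiv x y n G' s' J) : iso₀₁ hC h h' (G.r₁ s.2) = G'.r₁ s'.2 := by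
  have h1 : xElt k B₀₁ A x ^ n • iso₀₁ hC h h' (G.r₁ s.2) =
      xElt k B₀₁ A x ^ n • G'.r₁ s'.2 := by
    rw [← map_smul, ← h.r₀_eq, iso₀₁_r₀, iso₀_apply, h'.r₀_eq]
  exact ((isUnit_xElt (A := A) hC).pow n).smul_left_cancel.mp h1

theorem iso₀₁_symm_σ (hC : IsCurveChart k B₀ B₁ B₀₁ x y e) (h : SecDiv x y n G s J)
    (h' : SecDiv x y n G' s' J) : (iso₀₁ hC h h').symm (G'.r₁ s'.2) = G.r₁ s.2 := by
  rw [LinearEquiv.symm_apply_eq, iso₀₁_σ]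

theorem exists_common_v (h : SecDiv x y n G s J) (h' : SecDiv x y n G' s' J) :
    ∃ w : A ⊗[k] B₁, w - 1 ∈ Ideal.span {yElt k A y} ∧
      (∀ m : G.N₁, ∃ ρ : A ⊗[k] B₁, w • m = ρ • s.2) ∧
      (∀ m : G'.N₁, ∃ ρ : A ⊗[k] B₁, w • m = ρ • s'.2) := by
  obtain ⟨v, hv, hg⟩ := h.exists_v
  obtain ⟨v', hv', hg'⟩ := h'.exists_v
  refine ⟨v * v', ?_, fun m => ?_, fun m => ?_⟩
  · have : v * v' - 1 = v * (v' - 1) + (v - 1) := by ring
    rw [this]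
    exact Ideal.add_mem _ (Ideal.mul_mem_left _ _ hv') hv
  · obtain ⟨ρ, hρ⟩ := hg m
    exact ⟨v' * ρ, by rw [mul_comm v v', mul_smul, hρ, mul_smul]⟩
  · obtain ⟨ρ, hρ⟩ := hg' m
    exact ⟨v * ρ, by rw [mul_smul, hρ, mul_smul]⟩

/-- (F8) an isomorphism over the intersection matching `σ` and `σ'` maps `r₁ N₁` into
`r₁' N₁'`. -/
theorem mem_range_of_map_σ (hC : IsCurveChart k B₀ B₁ B₀₁ x y e) (h : SecDiv x y n G s J)
    (h' : SecDiv x y n G' s' J) (E : G.N₀₁ ≃ₗ[A ⊗[k] B₀₁] G'.N₀₁)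
    (hE : E (G.r₁ s.2) = G'.r₁ s'.2) (m : G.N₁) :
    E (G.r₁ m) ∈ LinearMap.range G'.r₁ := by
  obtain ⟨w, hw, hg, hg'⟩ := exists_common_v h h'
  rw [mem_range_iff_of_sub_one_mem G'.r₁ (yElt k A y) w hw s'.2
    (exists_yElt_pow_smul_eq G' hC) hg']
  obtain ⟨ρ, hρ⟩ := hg m
  refine ⟨ρ, ?_⟩
  have hsm : ∀ (c : A ⊗[k] B₁) (z : G.N₀₁), E (c • z) = c • E z := by
    intro c z
    rw [← algebraMap_smul (A ⊗[k] B₀₁) c z, map_smul, algebraMap_smul]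
  rw [← hE, ← hsm, ← hsm, ← map_smul, hρ, map_smul]

/-- The isomorphism on the second chart. -/
noncomputable def iso₁ (hC : IsCurveChart k B₀ B₁ B₀₁ x y e) (h : SecDiv x y n G s J)
    (h' : SecDiv x y n G' s' J) : G.N₁ ≃ₗ[A ⊗[k] B₁] G'.N₁ :=
  restrictLinearEquiv (r1_inj G hC) (r1_inj G' hC) (iso₀₁ hC h h')
    (mem_range_of_map_σ hC h h' _ (iso₀₁_σ hC h h'))
    (mem_range_of_map_σ hC h' h _ (iso₀₁_symm_σ hC h h'))

theorem iso₁_apply (hC : IsCurveChart k B₀ B₁ B₀₁ x y e) (h : SecDiv x y n G s J)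
    (h' : SecDiv x y n G' s' J) (m : G.N₁) :
    G'.r₁ (iso₁ hC h h' m) = iso₀₁ hC h h' (G.r₁ m) :=
  restrictLinearEquiv_apply _ _ _ _ _ m

/-- Two gluing data carrying sections (of the same twist) with the same divisor, not vanishing
on `E₀`, are isomorphic. -/
theorem isIso_of_secDiv (hC : IsCurveChart k B₀ B₁ B₀₁ x y e) (h : SecDiv x y n G s J)
    (h' : SecDiv x y n G' s' J) : G.IsIso G' :=
  ⟨⟨iso₀ hC h h', iso₁ hC h h', iso₀₁ hC h h', iso₀₁_r₀ hC h h',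
    fun m => (iso₁_apply hC h h' m).symm⟩⟩

end Iso

section Main

variable {A : Type u} [CommRing A] [Algebra k A]

/-- **PT-ISO**: two gluing data with the same Hilbert coordinates are isomorphic. -/
theorem pointCond_iso (hC : IsCurveChart k B₀ B₁ B₀₁ x y e) (i : ChartIndex k B₀)
    {G G' : CurveGD k B₀ B₁ B₀₁ A} {φ₀ : H491.Rβ k i.β →ₐ[k] A}
    (h : PointCond x y i G φ₀) (h' : PointCond x y i G' φ₀) : G.IsIso G' := by
  obtain ⟨s, hs, hspan⟩ := h.sect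
  obtain ⟨s', hs', hspan'⟩ := h'.sect
  exact isIso_of_secDiv hC (n := i.n) ⟨(mem_secq.mp hs.mem).1, hs.gen, hspan⟩
    ⟨(mem_secq.mp hs'.mem).1, hs'.gen, hspan'⟩

end Main

end Fermat.Agent.S25.H490
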