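/-
S25, block DEGREE, leaf D0 (helper490): global functions on the curve are constant.

For a curve chart `(B₀, B₁, B₀₁, x, y, e)` over an algebraically closed field `k`:
* `inter_eq_range`   : `B₀ ∩ B₁ = k` inside `B₀₁`;
* `unit_H0_eq`       : for every `k`-algebra `A`, `Ȟ⁰` of the unit gluing datum over `A` is
                       `{(a ⊗ 1, a ⊗ 1)}`;
* `unitH0Equiv`      : `A ≃ₗ[A] Ȟ⁰(unit)`;  `finrank_unit_H0` : over a field it has dimension 1.
-/
import Fermat.Agent.S25.H250.AdapterProj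
import Fermat.Agent.S25.H370.CechK6Full
import Fermat.Agent.S25.H370.CechK3

set_option autoImplicit false
set_option linter.style.haveILetI false

universe u

open scoped TensorProduct
open Polynomial

namespace Fermat.Agent.S25.H490

open Fermat.Agent.S25 Fermat.Agent.S25.H10

noncomputable section

variable {k : Type u} [Field k] {B₀ B₁ B₀₁ : Type u} [CommRing B₀] [CommRing B₁] [CommRing B₀₁]
  [Algebra k B₀] [Algebra k B₁] [Algebra k B₀₁] [Algebra B₀ B₀₁] [Algebra B₁ B₀₁]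
  [IsScalarTower k B₀ B₀₁] [IsScalarTower k B₁ B₀₁]
  {x : B₀} {y : B₁} {e : B₁ →ₐ[k] k}

theorem mulLeft_pow_apply {R : Type u} [CommRing R] [Algebra k R] (a : R) (n : ℕ) (z : R) :
    ((LinearMap.mulLeft k a) ^ n) z = a ^ n * z := by
  induction n generalizing z with
  | zero => simp
  | succ n ih => rw [pow_succ', Module.End.mul_apply, ih, LinearMap.mulLeft_apply, pow_succ',
      mul_assoc]

/-- The operator-style Čech datum of the structure sheaf over `k` (plain rings). -/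
def plainOps (h : IsCurveChart k B₀ B₁ B₀₁ x y e) : CechOps k B₀ B₁ B₀₁ where
  X0 := LinearMap.mulLeft k x
  Y1 := LinearMap.mulLeft k y
  T := LinearMap.mulLeft k (algebraMap B₀ B₀₁ x)
  Tinv := LinearMap.mulLeft k (algebraMap B₁ B₀₁ y)
  r0 := (IsScalarTower.toAlgHom k B₀ B₀₁).toLinearMap
  r1 := (IsScalarTower.toAlgHom k B₁ B₀₁).toLinearMap
  T_mul_Tinv := by
    ext z
    simp only [Module.End.mul_apply, LinearMap.mulLeft_apply, Module.End.one_apply]
    rw [← mul_assoc, h.mul_eq_one, one_mul]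
  Tinv_mul_T := by
    ext z
    simp only [Module.End.mul_apply, LinearMap.mulLeft_apply, Module.End.one_apply]
    rw [← mul_assoc, mul_comm (algebraMap B₁ B₀₁ y), h.mul_eq_one, one_mul]
  r0_X0 := fun n => by simp
  r1_Y1 := fun n => by simp
  loc0 := fun z => by
    haveI := h.away₀
    obtain ⟨n, a, ha⟩ := IsLocalization.Away.surj x z
    exact ⟨n, a, by rw [mulLeft_pow_apply, mul_comm, ha]; rfl⟩
  loc1 := fun z => by
    haveI := h.away₁
    obtain ⟨n, a, ha⟩ := IsLocalization.Away.surj y z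
    exact ⟨n, a, by rw [mulLeft_pow_apply, mul_comm, ha]; rfl⟩

theorem plainOps_d_zero_apply (h : IsCurveChart k B₀ B₁ B₀₁ x y e) (p : B₀ × B₁) :
    (plainOps h).d 0 p = algebraMap B₀ B₀₁ p.1 - algebraMap B₁ B₀₁ p.2 := by
  simp [plainOps]

theorem plainOps_isFGProj_X0 (h : IsCurveChart k B₀ B₁ B₀₁ x y e) :
    IsFGProj (plainOps h).X0 := by
  haveI := h.isDomain₀
  obtain ⟨n, φ, hφ⟩ := H250.exists_equivariant_equiv (H250.aeval_x_injective h) h.finite₀
  refine ⟨n, φ.toLinearMap, φ.symm.toLinearMap, ?_, fun v => hφ v, fun w => ?_⟩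
  · ext v; simp
  · apply φ.injective
    show φ (φ.symm _) = φ (x * φ.symm w)
    rw [hφ]; simp

theorem plainOps_isFGProj_Y1 (h : IsCurveChart k B₀ B₁ B₀₁ x y e) :
    IsFGProj (plainOps h).Y1 := by
  haveI := h.isDomain₁
  obtain ⟨n, φ, hφ⟩ := H250.exists_equivariant_equiv (H250.aeval_y_injective h) h.finite₁
  refine ⟨n, φ.toLinearMap, φ.symm.toLinearMap, ?_, fun v => hφ v, fun w => ?_⟩
  · ext v; simp
  · apply φ.injective
    show φ (φ.symm _) = φ (y * φ.symm w)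
    rw [hφ]; simp

theorem plainOps_H0_finite (h : IsCurveChart k B₀ B₁ B₀₁ x y e) :
    Module.Finite k ((plainOps h).H0 0) := by
  have h0 := plainOps_isFGProj_X0 h
  have h1 := plainOps_isFGProj_Y1 h
  have hr0 : Function.Injective (plainOps h).r0 := H250.algebraMap_B0_injective h
  have hr1 : Function.Injective (plainOps h).r1 := H250.algebraMap_B1_injective h
  obtain ⟨m0, hm0⟩ := H790.exists_forall_d_surjective (plainOps h) (isFG_of_isFGProj h0)
  obtain ⟨-, hfin, -⟩ := H370.H0_finite_projective_of_surjective (plainOps h) h0 h1 hr0 hr1 m0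
    (hm0 m0 le_rfl)
  have hinj := H370.incl_injective (plainOps h) (injective_of_isFGProj h1) m0
  exact Module.Finite.of_injective ((plainOps h).incl m0) hinj

/-- The subalgebra `B₀ ∩ B₁` of `B₀`. -/
def interSubalgebra (B₁ : Type u) [CommRing B₁] [Algebra k B₁] [Algebra B₁ B₀₁]
    [IsScalarTower k B₁ B₀₁] : Subalgebra k B₀ where
  carrier := {b | ∃ b1 : B₁, algebraMap B₀ B₀₁ b = algebraMap B₁ B₀₁ b1}
  mul_mem' := by
    rintro a b ⟨a1, ha⟩ ⟨b1, hb⟩
    exact ⟨a1 * b1, by rw [map_mul, map_mul, ha, hb]⟩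
  add_mem' := by
    rintro a b ⟨a1, ha⟩ ⟨b1, hb⟩
    exact ⟨a1 + b1, by rw [map_add, map_add, ha, hb]⟩
  algebraMap_mem' := fun c => ⟨algebraMap k B₁ c, by
    rw [← IsScalarTower.algebraMap_apply, ← IsScalarTower.algebraMap_apply]⟩

theorem interSubalgebra_fg (h : IsCurveChart k B₀ B₁ B₀₁ x y e) :
    (Subalgebra.toSubmodule (interSubalgebra (k := k) (B₀ := B₀) (B₀₁ := B₀₁) B₁)).FG := by
  haveI := plainOps_H0_finite h
  have hfg : ((plainOps h).H0 0).FG := Module.Finite.iff_fg.mp inferInstance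
  have heq : Subalgebra.toSubmodule (interSubalgebra (k := k) (B₀ := B₀) (B₀₁ := B₀₁) B₁) =
      Submodule.map (LinearMap.fst k B₀ B₁) ((plainOps h).H0 0) := by
    ext b
    constructor
    · rintro ⟨b1, hb⟩
      refine ⟨(b, b1), ?_, rfl⟩
      rw [SetLike.mem_coe, LinearMap.mem_ker, plainOps_d_zero_apply, sub_eq_zero]
      exact hb
    · rintro ⟨⟨a, b1⟩, hp, rfl⟩
      rw [SetLike.mem_coe, LinearMap.mem_ker, plainOps_d_zero_apply, sub_eq_zero] at hp
      exact ⟨b1, hp⟩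
  rw [heq]
  exact hfg.map _

/-- **D0 over `k`.** `B₀ ∩ B₁ = k` inside `B₀₁`. -/
theorem inter_eq_range [IsAlgClosed k] (h : IsCurveChart k B₀ B₁ B₀₁ x y e) (b0 : B₀) (b1 : B₁)
    (hb : algebraMap B₀ B₀₁ b0 = algebraMap B₁ B₀₁ b1) :
    ∃ c : k, b0 = algebraMap k B₀ c ∧ b1 = algebraMap k B₁ c := by
  haveI := h.isDomain₀
  have hint : IsIntegral k b0 :=
    IsIntegral.of_mem_of_fg (interSubalgebra (k := k) (B₀ := B₀) (B₀₁ := B₀₁) B₁)
      (interSubalgebra_fg h) b0 ⟨b1, hb⟩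
  have hdeg : (minpoly k b0).degree = 1 :=
    IsAlgClosed.degree_eq_one_of_irreducible k (minpoly.irreducible hint)
  obtain ⟨c, hc⟩ := minpoly.mem_range_of_degree_eq_one k b0 hdeg
  refine ⟨c, hc.symm, ?_⟩
  apply H250.algebraMap_B1_injective h
  rw [← hb, ← hc, ← IsScalarTower.algebraMap_apply, ← IsScalarTower.algebraMap_apply]

section General

variable (A : Type u) [CommRing A] [Algebra k A]

/-- The plain Čech differential of the structure sheaf over `k`. -/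
def plainCech (k B₀ B₁ B₀₁ : Type u) [Field k] [CommRing B₀] [CommRing B₁] [CommRing B₀₁]
    [Algebra k B₀] [Algebra k B₁] [Algebra k B₀₁] [Algebra B₀ B₀₁] [Algebra B₁ B₀₁]
    [IsScalarTower k B₀ B₀₁] [IsScalarTower k B₁ B₀₁] : (B₀ × B₁) →ₗ[k] B₀₁ :=
  ((IsScalarTower.toAlgHom k B₀ B₀₁).toLinearMap).coprod
    (-(IsScalarTower.toAlgHom k B₁ B₀₁).toLinearMap)

theorem plainCech_apply (p : B₀ × B₁) :
    plainCech k B₀ B₁ B₀₁ p = algebraMap B₀ B₀₁ p.1 - algebraMap B₁ B₀₁ p.2 := by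
  simp [plainCech, sub_eq_add_neg]

theorem lTensor_plainCech (w : A ⊗[k] (B₀ × B₁)) :
    TensorProduct.AlgebraTensorModule.lTensor A A (plainCech k B₀ B₁ B₀₁) w =
      algebraMap (A ⊗[k] B₀) (A ⊗[k] B₀₁) (TensorProduct.prodRight k A A B₀ B₁ w).1 -
        algebraMap (A ⊗[k] B₁) (A ⊗[k] B₀₁) (TensorProduct.prodRight k A A B₀ B₁ w).2 := by
  induction w using TensorProduct.induction_on with
  | zero => simp
  | tmul a p =>
    rw [TensorProduct.AlgebraTensorModule.lTensor_tmul, TensorProduct.prodRight_tmul,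
      H250.algebraMap_tensor_tmul, H250.algebraMap_tensor_tmul, plainCech_apply,
      TensorProduct.tmul_sub]
  | add w w' hw hw' =>
    rw [map_add, map_add, hw, hw', Prod.fst_add, Prod.snd_add, map_add, map_add]
    abel

theorem exists_lTensor_ker_eq [IsAlgClosed k] (h : IsCurveChart k B₀ B₁ B₀₁ x y e)
    (w : A ⊗[k] LinearMap.ker (plainCech k B₀ B₁ B₀₁)) :
    ∃ a : A, TensorProduct.AlgebraTensorModule.lTensor A A
      (LinearMap.ker (plainCech k B₀ B₁ B₀₁)).subtype w = a ⊗ₜ[k] ((1 : B₀), (1 : B₁)) := by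
  induction w using TensorProduct.induction_on with
  | zero => exact ⟨0, by simp⟩
  | tmul a p =>
    obtain ⟨⟨b0, b1⟩, hp⟩ := p
    rw [LinearMap.mem_ker, plainCech_apply, sub_eq_zero] at hp
    obtain ⟨c, rfl, rfl⟩ := inter_eq_range h b0 b1 hp
    refine ⟨c • a, ?_⟩
    rw [TensorProduct.AlgebraTensorModule.lTensor_tmul, Submodule.subtype_apply,
      TensorProduct.smul_tmul]
    congr 1
    ext <;> simp [Algebra.algebraMap_eq_smul_one]
  | add w w' hw hw' =>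
    obtain ⟨a, ha⟩ := hw
    obtain ⟨a', ha'⟩ := hw'
    exact ⟨a + a', by rw [map_add, ha, ha', TensorProduct.add_tmul]⟩

/-- **D0.** Global functions on `C_A` are constant: a compatible pair of functions on the two
charts of `C_A` is `(a ⊗ 1, a ⊗ 1)` for some `a : A`. -/
theorem exists_eq_tmul_one [IsAlgClosed k] (h : IsCurveChart k B₀ B₁ B₀₁ x y e)
    (z0 : A ⊗[k] B₀) (z1 : A ⊗[k] B₁)
    (hz : algebraMap (A ⊗[k] B₀) (A ⊗[k] B₀₁) z0 = algebraMap (A ⊗[k] B₁) (A ⊗[k] B₀₁) z1) :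
    ∃ a : A, z0 = a ⊗ₜ[k] (1 : B₀) ∧ z1 = a ⊗ₜ[k] (1 : B₁) := by
  set P := TensorProduct.prodRight k A A B₀ B₁ with hP
  have hker : P.symm (z0, z1) ∈
      LinearMap.ker (TensorProduct.AlgebraTensorModule.lTensor A A (plainCech k B₀ B₁ B₀₁)) := by
    rw [LinearMap.mem_ker, lTensor_plainCech, ← hP, LinearEquiv.apply_symm_apply, sub_eq_zero]
    exact hz
  rw [Module.Flat.ker_lTensor_eq] at hker
  obtain ⟨w', hw'⟩ := hker
  obtain ⟨a, ha⟩ := exists_lTensor_ker_eq A h w'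
  refine ⟨a, ?_⟩
  have h2 : (z0, z1) = P (a ⊗ₜ[k] ((1 : B₀), (1 : B₁))) := by
    rw [← ha, hw', LinearEquiv.apply_symm_apply]
  rw [hP, TensorProduct.prodRight_tmul] at h2
  exact ⟨congrArg Prod.fst h2, congrArg Prod.snd h2⟩

/-- The diagonal element `(a ⊗ 1, a ⊗ 1)` of the unit gluing datum. -/
def unitDiag (k B₀ B₁ B₀₁ : Type u) [Field k] [CommRing B₀] [CommRing B₁] [CommRing B₀₁]
    [Algebra k B₀] [Algebra k B₁] [Algebra k B₀₁] [Algebra B₀ B₀₁] [Algebra B₁ B₀₁]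
    [IsScalarTower k B₀ B₀₁] [IsScalarTower k B₁ B₀₁] (A : Type u) [CommRing A] [Algebra k A] :
    A →ₗ[A] (GlueDatum.unit A (A ⊗[k] B₀) (A ⊗[k] B₁) (A ⊗[k] B₀₁)).H0 :=
  LinearMap.codRestrict _
    (LinearMap.prod (Algebra.linearMap A (A ⊗[k] B₀)) (Algebra.linearMap A (A ⊗[k] B₁)))
    (fun a => by
      rw [LinearMap.mem_ker]
      show algebraMap (A ⊗[k] B₀) (A ⊗[k] B₀₁) (algebraMap A (A ⊗[k] B₀) a) +
        -(algebraMap (A ⊗[k] B₁) (A ⊗[k] B₀₁) (algebraMap A (A ⊗[k] B₁) a)) = 0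
      rw [← IsScalarTower.algebraMap_apply, ← IsScalarTower.algebraMap_apply, add_neg_cancel])

theorem unitDiag_coe (a : A) :
    ((unitDiag k B₀ B₁ B₀₁ A a).1 : (A ⊗[k] B₀) × (A ⊗[k] B₁)) =
      (a ⊗ₜ[k] 1, a ⊗ₜ[k] 1) := rfl

theorem unitDiag_injective (h : IsCurveChart k B₀ B₁ B₀₁ x y e) :
    Function.Injective (unitDiag k B₀ B₁ B₀₁ A) := by
  haveI := h.isDomain₀
  intro a a' haa
  have h1 : (a ⊗ₜ[k] (1 : B₀) : A ⊗[k] B₀) = a' ⊗ₜ[k] (1 : B₀) := by
    have h2 := congrArg (fun z : (GlueDatum.unit A (A ⊗[k] B₀) (A ⊗[k] B₁) (A ⊗[k] B₀₁)).H0 =>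
      ((z.1 : (A ⊗[k] B₀) × (A ⊗[k] B₁))).1) haa
    exact h2
  exact Algebra.TensorProduct.includeLeft_injective (S := A) (algebraMap k B₀).injective h1

theorem unitDiag_surjective [IsAlgClosed k] (h : IsCurveChart k B₀ B₁ B₀₁ x y e) :
    Function.Surjective (unitDiag k B₀ B₁ B₀₁ A) := by
  rintro ⟨⟨z0, z1⟩, hz⟩
  have hz' : algebraMap (A ⊗[k] B₀) (A ⊗[k] B₀₁) z0 =
      algebraMap (A ⊗[k] B₁) (A ⊗[k] B₀₁) z1 := by
    rw [LinearMap.mem_ker] at hz
    have hz2 : algebraMap (A ⊗[k] B₀) (A ⊗[k] B₀₁) z0 +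
        -(algebraMap (A ⊗[k] B₁) (A ⊗[k] B₀₁) z1) = 0 := hz
    rwa [← sub_eq_add_neg, sub_eq_zero] at hz2
  obtain ⟨a, rfl, rfl⟩ := exists_eq_tmul_one A h z0 z1 hz'
  exact ⟨a, Subtype.ext (unitDiag_coe A a)⟩

/-- **D0, frozen language.** `A ≃ Ȟ⁰(unit)` for every `k`-algebra `A`. -/
def unitH0Equiv [IsAlgClosed k] (h : IsCurveChart k B₀ B₁ B₀₁ x y e) :
    A ≃ₗ[A] (GlueDatum.unit A (A ⊗[k] B₀) (A ⊗[k] B₁) (A ⊗[k] B₀₁)).H0 :=
  LinearEquiv.ofBijective (unitDiag k B₀ B₁ B₀₁ A)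
    ⟨unitDiag_injective A h, unitDiag_surjective A h⟩

end General

section Field

variable (K : Type u) [Field K] [Algebra k K]

theorem finite_unit_H0 [IsAlgClosed k] (h : IsCurveChart k B₀ B₁ B₀₁ x y e) :
    Module.Finite K (GlueDatum.unit K (K ⊗[k] B₀) (K ⊗[k] B₁) (K ⊗[k] B₀₁)).H0 :=
  Module.Finite.equiv (unitH0Equiv K h)

/-- Over a field, `Ȟ⁰` of the unit datum is one-dimensional. -/
theorem finrank_unit_H0 [IsAlgClosed k] (h : IsCurveChart k B₀ B₁ B₀₁ x y e) :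
    Module.finrank K (GlueDatum.unit K (K ⊗[k] B₀) (K ⊗[k] B₁) (K ⊗[k] B₀₁)).H0 = 1 := by
  rw [← (unitH0Equiv K h).finrank_eq, Module.finrank_self]

/-- `χ(O) = 1 - h¹(O)`. -/
theorem euler_unit [IsAlgClosed k] (h : IsCurveChart k B₀ B₁ B₀₁ x y e) :
    (GlueDatum.unit K (K ⊗[k] B₀) (K ⊗[k] B₁) (K ⊗[k] B₀₁)).euler =
      1 - (Module.finrank K
        (GlueDatum.unit K (K ⊗[k] B₀) (K ⊗[k] B₁) (K ⊗[k] B₀₁)).H1 : ℤ) := by
  rw [GlueDatum.euler, finrank_unit_H0 K h]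
  rfl

end Field

end

end Fermat.Agent.S25.H490
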